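import Fermat.Agent.SemistableRed.NewformSystem
import Fermat.Agent.SemistableRed.AllFacts

/-!
# A Hecke polynomial separating a newform from a lower level, and eigen vectors
-/

set_option autoImplicit false
set_option linter.style.haveILetI false

noncomputable section

open Fermat.Agent.EigenRep Matrix CongruenceSubgroup ModularCurve

namespace Fermat.Agent.RowS36

open SemistableRed

/-- `evalT` as a ring homomorphism, acting on a common eigen vector. -/
theorem map_evalT_mulVec {N p : ℕ} [NeZero N] (M : TorsionHeckeModel N p) (S : Set ℕ) {K : Type}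
    [CommRing K] (a : Nat.Primes → K) {v : Fin M.d → K}
    (hv : ∀ ℓ : Nat.Primes, (ℓ : ℕ) ∉ S → (M.T ℓ).map (Int.cast : ℤ → K) *ᵥ v = a ℓ • v)
    (P : MvPolynomial {ℓ : Nat.Primes // (ℓ : ℕ) ∉ S} ℤ) :
    (evalT M S P : Matrix (Fin M.d) (Fin M.d) ℤ).map (Int.castRingHom K) *ᵥ v =
      MvPolynomial.eval₂ (Int.castRingHom K) (fun ℓ => a ℓ.1) P • v := by
  induction P using MvPolynomial.induction_on with
  | C c =>
    rw [evalT_C, MvPolynomial.eval₂_C, Subalgebra.coe_algebraMap,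
      Matrix.map_algebraMap _ _ (map_zero _) rfl, Algebra.algebraMap_eq_smul_one, smul_mulVec,
      one_mulVec]
    funext i
    simp
  | add P Q hP hQ =>
    rw [evalT_add, MvPolynomial.eval₂_add, Subalgebra.coe_add,
      Matrix.map_add _ (map_add _), add_mulVec, hP, hQ, add_smul]
  | mul_X P l hP =>
    rw [evalT_mul, evalT_X, MvPolynomial.eval₂_mul, MvPolynomial.eval₂_X, Subalgebra.coe_mul,
      Matrix.map_mul, ← mulVec_mulVec,
      show (matGen (matFamily M S) l : Matrix (Fin M.d) (Fin M.d) ℤ).map (Int.castRingHom K) *ᵥ v =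
        a l.1 • v from hv l.1 l.2, mulVec_smul, hP, smul_smul, mul_comm]

/-- Some Hecke polynomial vanishes at a proper level and not on the newform. -/
theorem exists_poly_of_newform {M M' p : ℕ} [NeZero M] [NeZero M'] [Fact p.Prime]
    {g : CuspForm (Gamma0 M) 2} (hg : g.IsNewform) (hdvd : M' ∣ M) (hne : M' ≠ M)
    {S : Set ℕ} (hSf : S.Finite) (hNS : ∀ r : ℕ, r.Prime → r ∣ M → r ∈ S)
    (χ : CuspForm.heckeAlgebra M 2 S →+* ℂ)
    (hχ : ∀ (ℓ : ℕ) (hℓ : ℓ.Prime) (hℓN : ¬ ℓ ∣ M) (hℓS : ℓ ∉ S),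
      χ (CuspForm.heckeAlgebra.T hℓ hℓN hℓS) = ModularFormClass.qCoeff g ℓ) :
    ∃ P, evalT (torsionInputs (allRelations M' p)).model S P = 0 ∧
      χ (toForms (torsionInputs (allRelations M p)).model S
        (evalT (torsionInputs (allRelations M p)).model S P)) ≠ 0 := by
  classical
  set R := torsionInputs (allRelations M p)
  set R' := torsionInputs (allRelations M' p)
  have hN'S : ∀ r : ℕ, r.Prime → r ∣ M' → r ∈ S := fun r hr h => hNS r hr (h.trans hdvd)
  by_contra hcon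
  push Not at hcon
  letI := matAlgCommRing (T := matFamily R.model S) fun i j => R.model.comm i.1 j.1
  letI := matAlgCommRing (T := matFamily R'.model S) fun i j => R'.model.comm i.1 j.1
  let e' : MvPolynomial {ℓ : Nat.Primes // (ℓ : ℕ) ∉ S} ℤ →+* matAlg (matFamily R'.model S) :=
    (MvPolynomial.aeval fun ℓ => matGen (matFamily R'.model S) ℓ).toRingHom
  let ψ : MvPolynomial {ℓ : Nat.Primes // (ℓ : ℕ) ∉ S} ℤ →+* ℂ :=
    (χ.comp (toForms R.model S)).comp
      (MvPolynomial.aeval fun ℓ => matGen (matFamily R.model S) ℓ).toRingHom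
  have hsurj : Function.Surjective e' := by
    rintro ⟨m, hm⟩
    induction hm using Algebra.adjoin_induction with
    | mem m hm =>
      obtain ⟨i, rfl⟩ := hm
      exact ⟨MvPolynomial.X i, MvPolynomial.aeval_X _ i⟩
    | algebraMap r => exact ⟨MvPolynomial.C r, MvPolynomial.aeval_C _ r⟩
    | add x y _ _ hx hy =>
      obtain ⟨a, ha⟩ := hx
      obtain ⟨b, hb⟩ := hy
      exact ⟨a + b, by rw [map_add, ha, hb]; rfl⟩
    | mul x y _ _ hx hy =>
      obtain ⟨a, ha⟩ := hx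
      obtain ⟨b, hb⟩ := hy
      exact ⟨a * b, by rw [map_mul, ha, hb]; rfl⟩
  have hker : RingHom.ker e' ≤ RingHom.ker ψ := fun P hP => hcon P hP
  let φ' : matAlg (matFamily R'.model S) →+* ℂ := e'.liftOfSurjective hsurj ⟨ψ, hker⟩
  have hφ' : ∀ P, φ' (e' P) = ψ P := fun P => RingHom.liftOfRightInverse_comp_apply _ _ _ _ P
  obtain ⟨h, hh, hhr⟩ := exists_eigenform_of_matAlgHom S hN'S (allRelations M' p) φ'
  have hagree : ∀ ℓ : ℕ, ℓ.Prime → ℓ ∉ S →
      ModularFormClass.qCoeff g ℓ = ModularFormClass.qCoeff h ℓ := by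
    intro ℓ hℓ hℓS
    have hℓN : ¬ ℓ ∣ M := fun hd => hℓS (hNS ℓ hℓ hd)
    have h1 := hφ' (MvPolynomial.X ⟨⟨ℓ, hℓ⟩, hℓS⟩)
    rw [show e' (MvPolynomial.X ⟨⟨ℓ, hℓ⟩, hℓS⟩) = matGen _ ⟨⟨ℓ, hℓ⟩, hℓS⟩ from
      MvPolynomial.aeval_X _ _] at h1
    rw [hhr ℓ hℓ hℓS, h1]
    show _ = χ (toForms R.model S (MvPolynomial.aeval _ (MvPolynomial.X _)))
    rw [MvPolynomial.aeval_X, toForms_T R.model hℓ hℓN hℓS, hχ]
  refine hg.2 M' hdvd hne ⟨h, hh, fun ℓ hℓ hℓN => ?_⟩
  exact (qCoeff_eq_of_agree_of_inputs (fun K r _ _ => torsionInputs (allRelations K r)) hg.1 hh hSf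
    hagree hℓ hℓN fun hd => hℓN (hd.trans hdvd)).symm

end Fermat.Agent.RowS36
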