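import Fermat.Agent.RowS36.AuxPrime
import Fermat.Agent.RowS36.Poly
import Fermat.Agent.Engine.TRep.TwistChain
import Fermat.Agent.EigenSystems.Occurs
import Fermat.Agent.SemistableRed.GlueS34

/-!
# Moving an eigen system between levels

Up along a divisibility, down at a prime where Frobenius has no eigenvalue `± 1`; a level with a
prime factor `≡ 11 (mod 12)` has no elliptic points.
-/

set_option autoImplicit false
set_option linter.style.haveILetI false

noncomputable section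

open IsLocalRing Matrix Polynomial ModularCurve

namespace Fermat.Agent.RowS36

open EigenRep SemistableRed HeckeModule

local notation "Qbar" => AlgebraicClosure ℚ

/-- No elliptic points of order two. -/
theorem nuTwo_eq_zero_of_prime_dvd {N r : ℕ} [Fact r.Prime] (hrN : r ∣ N) (h4 : r % 4 = 3) :
    nuTwo N = 0 := by
  refine Nat.card_eq_zero.mpr (Or.inl ⟨fun ⟨x, hx⟩ => ?_⟩)
  have h := congrArg (ZMod.castHom hrN (ZMod r)) hx
  rw [map_add, map_pow, map_one, map_zero, add_eq_zero_iff_eq_neg] at h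
  exact ZMod.mod_four_ne_three_of_sq_eq_neg_one h h4

/-- No elliptic points of order three. -/
theorem nuThree_eq_zero_of_prime_dvd {N r : ℕ} [Fact r.Prime] (hrN : r ∣ N) (h3 : r % 3 = 2) :
    nuThree N = 0 := by
  refine Nat.card_eq_zero.mpr (Or.inl ⟨fun ⟨x, hx⟩ => ?_⟩)
  have h := congrArg (ZMod.castHom hrN (ZMod r)) hx
  rw [map_add, map_add, map_pow, map_one, map_zero] at h
  set y := ZMod.castHom hrN (ZMod r) x
  have hy3 : y ^ 3 = 1 := by linear_combination (y - 1) * h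
  have hy0 : y ≠ 0 := fun e => by rw [e] at h; simp at h
  have hy1 : y = 1 := by
    have e := ZMod.pow_card_sub_one_eq_one hy0
    have h2 := (Fact.out : r.Prime).two_le
    rw [show r - 1 = 3 * ((r - 1) / 3) + 1 by omega, pow_succ, pow_mul, hy3, one_pow, one_mul] at e
    exact e
  rw [hy1] at h
  have h0 : ((3 : ℕ) : ZMod r) = 0 := by push_cast; linear_combination h
  have := (Nat.prime_dvd_prime_iff_eq (Fact.out : r.Prime) Nat.prime_three).mp
    ((ZMod.natCast_eq_zero_iff 3 r).mp h0)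
  omega

/-- An eigen system occurs at every multiple of its level. -/
theorem occurs_up {K : Type} [Field K] [CharZero K] {M M' : ℕ} [NeZero M'] (hd : M ∣ M')
    {S : Finset ℕ} {lam : ℕ → K} (h : Engine.Occurs K M 1 S lam) :
    Engine.Occurs K M' 1 S lam := by
  obtain ⟨c, hc0, hc⟩ := h
  have hd' : 1 * M ∣ M' := by rwa [one_mul]
  refine ⟨degen (scalarRep (1 : (ZMod M)ˣ →* K) K) one_ne_zero hd' c, fun h0 =>
    hc0 (Engine.TRep.degen_one_injective hd' 1 (h0.trans (map_zero _).symm)),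
    fun ℓ hℓ hℓS hℓN => ?_⟩
  show heckeOp (pullRep (scalarRep (1 : (ZMod M)ˣ →* K) K) (dvd_of_mul_left_dvd hd')) ℓ _ = _
  rw [← degen_heckeOp _ one_ne_zero hd' hℓ.out.not_dvd_one (fun h => absurd h hℓN),
    hc ℓ hℓS (fun h => hℓN (h.trans hd)), map_smul]
  rfl

/-- A character of Hecke polynomials killing the relations is one of the matrices. -/
theorem exists_matAlgHom {N p : ℕ} [NeZero N] [Fact p.Prime] (M : TorsionHeckeModel N p)
    (S : Set ℕ) {T : Type} [CommRing T]
    (ψ : MvPolynomial {ℓ : Nat.Primes // (ℓ : ℕ) ∉ S} ℤ →+* T)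
    (h : ∀ P, evalT M S P = 0 → ψ P = 0) :
    ∃ φ : matAlg (matFamily M S) →+* T, ∀ ℓ, φ (matGen _ ℓ) = ψ (MvPolynomial.X ℓ) := by
  letI := matAlgCommRing (T := matFamily M S) fun i j => M.comm i.1 j.1
  let e : MvPolynomial {ℓ : Nat.Primes // (ℓ : ℕ) ∉ S} ℤ →+* matAlg (matFamily M S) :=
    (MvPolynomial.aeval fun ℓ => matGen (matFamily M S) ℓ).toRingHom
  have hsurj : Function.Surjective e := by
    rintro ⟨m, hm⟩
    induction hm using Algebra.adjoin_induction with
    | mem m hm =>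
      obtain ⟨i, rfl⟩ := hm
      exact ⟨MvPolynomial.X i, MvPolynomial.aeval_X _ i⟩
    | algebraMap r => exact ⟨MvPolynomial.C r, MvPolynomial.aeval_C _ r⟩
    | add x y _ _ hx hy =>
      obtain ⟨a, ha⟩ := hx
      obtain ⟨b, hb⟩ := hy
      exact ⟨a + b, by rw [map_add, ha, hb]; rfl⟩
    | mul x y _ _ hx hy =>
      obtain ⟨a, ha⟩ := hx
      obtain ⟨b, hb⟩ := hy
      exact ⟨a * b, by rw [map_mul, ha, hb]; rfl⟩
  refine ⟨e.liftOfSurjective hsurj ⟨ψ, fun P hP => h P hP⟩, fun ℓ => ?_⟩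
  conv_lhs => rw [show matGen (matFamily M S) ℓ = e (MvPolynomial.X ℓ) from
    (MvPolynomial.aeval_X _ _).symm]
  exact RingHom.liftOfRightInverse_comp_apply _ _ _ _ _

variable {O : Type} [CommRing O] [IsDomain O] [IsDiscreteValuationRing O]
  [IsAdicComplete (maximalIdeal O) O] [CharZero O]

/-- **Down at `r`.** -/
theorem occurs_down {p : ℕ} [Fact p.Prime] {M r : ℕ} [NeZero M] (hr : r.Prime) (hrp : r ≠ p)
    (hrM : ¬ r ∣ M) {S : Finset ℕ} (hrS : r ∈ S) (hpS : p ∈ S)
    (hMS : ∀ q : ℕ, q.Prime → q ∣ M → q ∈ S) {a : ℕ → O} {ρ : GaloisRepAdic O}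
    (hatt : Engine.IsAttachedSystem O p ρ S a)
    (hne : EigenSystems.NonEisensteinSystem (M * r) S fun ℓ => algebraMap O (FractionRing O) (a ℓ))
    (hocc : Engine.Occurs (FractionRing O) (M * r) 1 S fun ℓ => algebraMap O (FractionRing O) (a ℓ))
    {A : ValuationSubring Qbar} (hA : A.LiesOverPrime r) {σ : Qbar ≃ₐ[ℚ] Qbar}
    (hσ : A.IsFrobeniusAt σ r) (hσr : ρ.trace σ ^ 2 ≠ ((r : O) + 1) ^ 2) :
    Engine.Occurs (FractionRing O) M 1 S fun ℓ => algebraMap O (FractionRing O) (a ℓ) := by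
  classical
  haveI := Fact.mk hr
  haveI : NeZero r := ⟨hr.ne_zero⟩
  set K := FractionRing O
  haveI : CharZero K := charZero_of_injective_algebraMap (IsFractionRing.injective O K)
  have hMrS : ∀ q : ℕ, q.Prime → q ∣ M * r → q ∈ S := fun q hq h =>
    (hq.dvd_mul.mp h).elim (hMS q hq) fun h => by
      rw [(Nat.prime_dvd_prime_iff_eq hq hr).mp h]; exact hrS
  haveI : FaithfulSMul O (AlgebraicClosure K) := by
    refine (faithfulSMul_iff_algebraMap_injective _ _).mpr ?_
    rw [IsScalarTower.algebraMap_eq O K (AlgebraicClosure K), RingHom.coe_comp]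
    exact (algebraMap K (AlgebraicClosure K)).injective.comp (IsFractionRing.injective O K)
  haveI : CharZero (AlgebraicClosure K) :=
    charZero_of_injective_algebraMap (algebraMap K (AlgebraicClosure K)).injective
  obtain ⟨g, θ, hg, hgl⟩ := EigenSystems.exists_eigenform_of_occurs' hocc hne
  obtain ⟨π, hπ⟩ := EigenSystems.exists_heckeHom hg θ hMrS (lam := a) fun ℓ hℓ hℓS hℓN => by
    obtain ⟨b, hb, hθ⟩ := hgl ℓ hℓ hℓS hℓN
    rw [show (⟨_, EigenSystems.isIntegral_qCoeff hg ℓ⟩ : integralClosure ℤ ℂ) = b from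
      Subtype.ext hb.symm, hθ]
    exact IsScalarTower.algebraMap_apply O K (AlgebraicClosure K) (a ℓ)
  let R := torsionInputs (allRelations (M * r) p)
  let R' := torsionInputs (allRelations M p)
  letI := matAlgCommRing (T := matFamily R.model (↑S : Set ℕ)) fun i j => R.model.comm i.1 j.1
  let ψ : MvPolynomial {ℓ : Nat.Primes // (ℓ : ℕ) ∉ (↑S : Set ℕ)} ℤ →+* O :=
    (π.comp (toForms R.model (↑S : Set ℕ))).comp
      (MvPolynomial.aeval fun ℓ => matGen (matFamily R.model (↑S : Set ℕ)) ℓ).toRingHom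
  have hfrob : ∀ (ℓ : ℕ) (hℓ : ℓ.Prime) (hℓN : ¬ ℓ ∣ M * r) (hℓS : ℓ ∉ (↑S : Set ℕ)),
      ∀ A : ValuationSubring Qbar, A.LiesOverPrime ℓ → ∀ τ, A.IsFrobeniusAt τ ℓ →
        LinearMap.charpoly (ρ.ρ τ) =
          X ^ 2 - C (π (CuspForm.heckeAlgebra.T hℓ hℓN hℓS)) * X + C ((ℓ : O)) := by
    intro ℓ hℓ hℓN hℓS A' hA' τ hτ
    have hℓp : ℓ ≠ p := fun h => hℓS (h ▸ Finset.mem_coe.mpr hpS)
    rw [charpoly_eq_of_trace_det ρ.finrank_eq, hπ,
      SquareOld.det_eq_padicHom hatt.1, epsilon_frobenius hℓ hℓp hA' hτ, map_natCast,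
      ← hatt.2 ℓ hℓ (by simpa using hℓS) A' hA' τ hτ]
    rfl
  by_cases hker : ∀ P, evalT R'.model (↑S : Set ℕ) P = 0 → ψ P = 0
  · obtain ⟨φ, hφ⟩ := exists_matAlgHom R'.model (↑S : Set ℕ) ψ hker
    obtain ⟨v, hv0, hv⟩ := exists_eigenvector_family R' (↑S : Set ℕ) ((algebraMap O K).comp φ)
      (fun ℓ : Nat.Primes => algebraMap O K (a ℓ)) fun ℓ => by
        show _ = algebraMap O K (φ _)
        rw [hφ]
        show _ = algebraMap O K (π (toForms R.model _ (MvPolynomial.aeval _ (MvPolynomial.X ℓ))))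
        rw [MvPolynomial.aeval_X]
        have h := toForms_T R.model ℓ.1.2 (fun h => ℓ.2 (Finset.mem_coe.mpr (hMrS _ ℓ.1.2 h))) ℓ.2
        rw [show toForms R.model (↑S : Set ℕ) (matGen _ ℓ) = _ from h, hπ]
    exact EigenSystems.occurs_of_mulVec hv0 fun ℓ hℓS _ =>
      (mem_eigenSub R'.model).mp hv ℓ (by simpa using hℓS)
  · push Not at hker
    obtain ⟨P, hP, hPπ⟩ := hker
    exfalso
    rcases charpoly_of_quartic R R' (normMaps_equivariant M r)
      (quarticOnKernel_of_frobeniusToric M r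
        (frobeniusToric_of_facts hrM fun A' hA' => goodReductionFacts M r hrM A' hA')
        ((Nat.coprime_primes Fact.out hr).mpr hrp.symm) hA hσ)
      (epsilon_frobenius hr hrp hA hσ) S.finite_toSet (Finset.mem_coe.mpr hpS)
      (fun q hq h => Finset.mem_coe.mpr (hMrS q hq h))
      (fun q hq h => Finset.mem_coe.mpr (hMS q hq h)) hatt.1.1 π ρ hfrob hP hPπ with h | h
    · exact hσr (by rw [show ρ.trace σ = (r : O) + 1 from
        Chebotarev.trace_eq_of_charpoly ρ.finrank_eq h])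
    · have h2 : LinearMap.charpoly (ρ.ρ σ) = X ^ 2 - C (-((r : O) + 1)) * X + C (r : O) := by
        rw [h, map_neg, neg_mul, sub_neg_eq_add]
      refine hσr ?_
      rw [show ρ.trace σ = -((r : O) + 1) from Chebotarev.trace_eq_of_charpoly ρ.finrank_eq h2]
      ring

end Fermat.Agent.RowS36
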