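import Fermat.Agent.SquareOld.Eigen
import Fermat.Agent.Chebotarev.Trace
import Mathlib.LinearAlgebra.Charpoly.Basic

/-!
# A representation with given characteristic polynomials of Frobenius

Cyclotomic determinant, irreducibility from the residual representation, and the fixed vector of a
group of unipotents.
-/

set_option autoImplicit false
set_option linter.style.haveILetI false

noncomputable section

open IsLocalRing Matrix Polynomial

namespace Fermat.Agent.RowS36

open EigenRep DefRing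

local notation "Qbar" => AlgebraicClosure ℚ

variable {O : Type} [CommRing O] [IsDomain O] [IsDiscreteValuationRing O] [CharZero O]

/-- Trace and determinant read off a quadratic characteristic polynomial. -/
theorem det_eq_of_charpoly (ρ : GaloisRepAdic O) {σ : Qbar ≃ₐ[ℚ] Qbar} {a d : O}
    (h : LinearMap.charpoly (ρ.ρ σ) = X ^ 2 - C a * X + C d) :
    LinearMap.det (ρ.ρ σ) = d := by
  let b := repBasis ρ
  rw [← LinearMap.charpoly_toMatrix (ρ.ρ σ) b, Matrix.charpoly_fin_two] at h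
  rw [← LinearMap.det_toMatrix b]
  have h0 := congrArg (fun q : Polynomial O => q.coeff 0) h
  simpa using h0

/-- The determinant is cyclotomic as soon as it is `ℓ` at almost all Frobenius elements. -/
theorem detIsCyclotomic_of_frobenius {p : ℕ} [Fact p.Prime] (hp : (p : O) ∈ maximalIdeal O)
    (ρ : GaloisRepAdic O) (S : Finset ℕ)
    (hfrob : ∀ ℓ : ℕ, ℓ.Prime → ℓ ∉ S → ∀ A : ValuationSubring Qbar, A.LiesOverPrime ℓ →
      ∀ σ : Qbar ≃ₐ[ℚ] Qbar, A.IsFrobeniusAt σ ℓ → LinearMap.det (ρ.ρ σ) = (ℓ : O)) :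
    ρ.DetIsCyclotomic p := by
  classical
  refine ⟨hp, fun n σ a ha => ?_⟩
  have hne : Ideal.span {((p ^ n : ℕ) : O)} ≠ ⊥ := by
    rw [Ne, Ideal.span_singleton_eq_bot]
    exact_mod_cast pow_ne_zero n (Fact.out : p.Prime).ne_zero
  obtain ⟨k, hk⟩ : ∃ k, maximalIdeal O ^ k ≤ Ideal.span {((p ^ n : ℕ) : O)} := by
    obtain ⟨k, hk⟩ := exists_maximalIdeal_pow_eq_of_principal O
      (IsPrincipalIdealRing.principal (maximalIdeal O)) _ hne
    exact ⟨k, hk.ge⟩
  obtain ⟨ζ, hζ⟩ := exists_primitiveRoot (p := p) n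
  haveI : FiniteDimensional ℚ ↥(IntermediateField.adjoin ℚ ({ζ} : Set Qbar)) :=
    IntermediateField.adjoin.finiteDimensional
      ((hζ.isIntegral (pow_pos (Fact.out : p.Prime).pos n)).tower_top)
  set b := repBasis ρ
  obtain ⟨L, hL, hfix⟩ := isCont_matrixRep ρ b k
  haveI := hL
  haveI : FiniteDimensional ℚ ↥(L ⊔ IntermediateField.adjoin ℚ ({ζ} : Set Qbar)) :=
    IntermediateField.finiteDimensional_sup _ _
  obtain ⟨ℓ, hℓ, hℓS, A, hA, τ, hτ, hag⟩ := Chebotarev.exists_isFrobeniusAt_eqOn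
    (L ⊔ IntermediateField.adjoin ℚ ({ζ} : Set Qbar)) σ (insert p S)
  rw [Finset.mem_insert, not_or] at hℓS
  -- `ℓ ≡ a`
  have hζτ : τ ζ = ζ ^ a := by
    rw [hag ζ (le_sup_right (α := IntermediateField ℚ Qbar)
      (IntermediateField.mem_adjoin_simple_self ℚ ζ)), ha ζ hζ.pow_eq_one]
  have hla : ((ℓ : ℤ) : ZMod (p ^ n)) = ((a : ℤ) : ZMod (p ^ n)) := by
    have h1 := toZModPow_epsilon_eq hζ hζτ
    rw [epsilon_frobenius hℓ hℓS.1 hA hτ, map_natCast] at h1
    exact_mod_cast h1
  obtain ⟨c, hc⟩ := (ZMod.intCast_eq_intCast_iff_dvd_sub _ _ _).mp hla.symm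
  have hla' : (ℓ : O) - (a : O) ∈ Ideal.span {((p ^ n : ℕ) : O)} := by
    refine Ideal.mem_span_singleton.mpr ⟨(c : O), ?_⟩
    have h2 := congrArg (fun z : ℤ => (z : O)) hc
    push_cast at h2 ⊢
    exact h2
  -- the determinants are congruent
  set R := matrixRep ρ b
  set q := Ideal.Quotient.mk (maximalIdeal O ^ k)
  have hm : (R τ).map q = (R σ).map q := by
    have h3 := hfix (σ⁻¹ * τ) fun x hx => by
      rw [AlgEquiv.mul_apply, hag x (le_sup_left (α := IntermediateField ℚ Qbar) hx)]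
      exact σ.symm_apply_apply x
    have h4 : (R (σ⁻¹ * τ)).map q = 1 := by
      ext i j
      have h5 := Ideal.Quotient.eq_zero_iff_mem.mpr (h3 i j)
      rw [Matrix.sub_apply, map_sub, sub_eq_zero] at h5
      rw [Matrix.map_apply, h5]
      rcases eq_or_ne i j with rfl | hij
      · simp
      · simp [hij]
    rw [show τ = σ * (σ⁻¹ * τ) from (mul_inv_cancel_left σ τ).symm, map_mul, Matrix.map_mul, h4,
      mul_one]
  have hdet : ∀ g, (R g).det = LinearMap.det (ρ.ρ g) := fun g => LinearMap.det_toMatrix b _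
  have hd : LinearMap.det (ρ.ρ τ) - LinearMap.det (ρ.ρ σ) ∈ maximalIdeal O ^ k := by
    rw [← Ideal.Quotient.eq, ← hdet, ← hdet, RingHom.map_det, RingHom.map_det]
    exact congrArg Matrix.det hm
  rw [hfrob ℓ hℓ hℓS.2 A hA τ hτ] at hd
  have h6 := sub_mem hla' (hk hd)
  rwa [sub_sub_sub_cancel_left] at h6

/-- A residually absolutely irreducible representation has no eigen vector. -/
theorem exists_not_eigen (ρ : GaloisRepAdic O) (h : ρ.residual.IsAbsolutelyIrreducible) (v : ρ.V)
    (hv : v ≠ 0) : ∃ σ, ∀ c d : O, c • ρ.ρ σ v = d • v → c = 0 := by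
  by_contra hcon
  push Not at hcon
  set b := repBasis ρ
  set x : Fin 2 → O := ⇑(b.repr v)
  let D : Matrix (Fin 2) (Fin 2) O → O := fun X => x 0 * (X *ᵥ x) 1 - x 1 * (X *ᵥ x) 0
  have hD : ∀ σ, D (matrixRep ρ b σ) = 0 := fun σ => by
    obtain ⟨c, d, hcd, hc⟩ := hcon σ
    have h1 : c • (matrixRep ρ b σ *ᵥ x) = d • x := by
      have h2 := congrArg (fun w => (b.repr w : Fin 2 → O)) hcd
      simp only [map_smul, Finsupp.coe_smul] at h2
      rw [matrixRep_apply, LinearMap.toMatrix_mulVec_repr]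
      exact h2
    have h10 := congrFun h1 0
    have h11 := congrFun h1 1
    simp only [Pi.smul_apply, smul_eq_mul] at h10 h11
    refine (mul_eq_zero.mp (show c * D (matrixRep ρ b σ) = 0 from ?_)).resolve_left hc
    show c * (x 0 * (matrixRep ρ b σ *ᵥ x) 1 - x 1 * (matrixRep ρ b σ *ᵥ x) 0) = 0
    linear_combination x 0 * h11 - x 1 * h10
  have hall : ∀ X, D X = 0 := fun X => by
    have hX : X ∈ Submodule.span O (Set.range (matrixRep ρ b)) :=
      (Chebotarev.span_matrixRep_eq_top ρ h b) ▸ Submodule.mem_top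
    induction hX using Submodule.span_induction with
    | mem y hy => obtain ⟨σ, rfl⟩ := hy; exact hD σ
    | zero => simp [D]
    | add y z _ _ hy hz =>
      simp only [D, add_mulVec, Pi.add_apply] at hy hz ⊢
      linear_combination hy + hz
    | smul r y _ hy =>
      simp only [D, smul_mulVec, Pi.smul_apply, smul_eq_mul] at hy ⊢
      linear_combination r * hy
  have h1 := hall !![0, 0; 1, 0]
  have h2 := hall !![0, 1; 0, 0]
  simp [D, Matrix.mulVec, dotProduct, Fin.sum_univ_two] at h1 h2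
  refine hv (b.repr.injective ?_)
  ext i
  fin_cases i
  · simpa [x] using h1
  · simpa [x] using h2

/-- Unipotent on inertia: a fixed vector. -/
theorem exists_fixed_of_unipotent (ρ : GaloisRepAdic O) {q : ℕ}
    (hu : ρ.IsUnipotentOnInertiaAt q) (A : ValuationSubring Qbar) (hA : A.LiesOverPrime q) :
    ∃ v : ρ.V, v ≠ 0 ∧ ∀ σ ∈ A.inertiaSubgroupIn ℚ, ρ.ρ σ v = v := by
  obtain ⟨v₀, hv₀⟩ : ∃ v : ρ.V, v ≠ 0 := ⟨repBasis ρ 0, (repBasis ρ).ne_zero 0⟩
  obtain ⟨v, -, hv, hfix⟩ := SquareOld.exists_fixed_of_inv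
    (ρ.ρ.comp (A.inertiaSubgroupIn ℚ).subtype) Set.univ (fun _ _ _ => Set.mem_univ _)
    (fun _ _ _ => Set.mem_univ _)
    (fun x hx => by
      refine (repBasis ρ).repr.injective (Finsupp.ext fun i => ?_)
      have h2 := congrArg (fun w => (repBasis ρ).repr w i) hx
      simp only [map_nsmul, Finsupp.coe_smul, Pi.smul_apply, map_zero, Finsupp.coe_zero,
        Pi.zero_apply, nsmul_eq_mul, mul_eq_zero] at h2
      simpa using h2.resolve_left (by norm_num))
    (fun g x _ => by
      set f := ρ.ρ (g : Qbar ≃ₐ[ℚ] Qbar) with hf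
      have h := LinearMap.aeval_self_charpoly f
      rw [hu A hA g g.2, map_pow, map_sub, aeval_X, map_one] at h
      set y := ρ.ρ ((g : Qbar ≃ₐ[ℚ] Qbar)⁻¹) x with hy
      have hxy : f y = x := by
        rw [hf, hy, ← Module.End.mul_apply, ← map_mul, mul_inv_cancel, map_one,
          Module.End.one_apply]
      have h' := LinearMap.congr_fun h y
      simp only [pow_two, Module.End.mul_apply, LinearMap.sub_apply, Module.End.one_apply,
        LinearMap.zero_apply, map_sub, hxy] at h'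
      show f x + ρ.ρ ((g : Qbar ≃ₐ[ℚ] Qbar)⁻¹) x = (2 : ℕ) • x
      rw [← hy, two_nsmul]
      linear_combination (norm := module) h')
    (Set.mem_univ v₀) hv₀
  exact ⟨v, hv, fun σ hσ => hfix ⟨σ, hσ⟩⟩

end Fermat.Agent.RowS36
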