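import Fermat.Agent.RowS36.Attach
import Fermat.Agent.Deform.TWInertia
import Fermat.Agent.TameInertia.Frobenius
import Mathlib.NumberTheory.LSeries.PrimesInAP
import Mathlib.RingTheory.Filtration

/-!
# An auxiliary prime `≡ 11 (mod 12)` where no eigenvalue of Frobenius is `± 1`

On a coset, stable under conjugation, of elements all having an eigenvalue `± 1`, with one element
having eigenvalues of infinite multiplicative order, a two-dimensional representation fixes a line.
-/

set_option autoImplicit false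
set_option linter.style.haveILetI false
set_option linter.unusedSectionVars false

noncomputable section

open IsLocalRing Matrix Polynomial

namespace Fermat.Agent.RowS36

open EigenRep DefRing

local notation "Qbar" => AlgebraicClosure ℚ

section Algebra

variable {K : Type} [Field K] {G : Type} [Group G] (R : G →* Matrix (Fin 2) (Fin 2) K) (C : Set G)

/-- In the eigen basis of one element: triangular on one side. -/
theorem triangular_of_sq_trace_eq (hconj : ∀ x, ∀ g ∈ C, x * g * x⁻¹ ∈ C)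
    (hthree : ∀ g ∈ C, ∀ h ∈ C, ∀ k ∈ C, g * h * k ∈ C)
    (hC : ∀ g ∈ C, (R g).trace ^ 2 = ((R g).det + 1) ^ 2)
    {g₀ : G} (hg₀ : g₀ ∈ C) {s e : K} (hs : s * s = 1) (he : ∀ k : ℕ, k ≠ 0 → e ^ k ≠ 1)
    (h₀ : R g₀ = !![s, 0; 0, s * e]) :
    (∀ x, R x 1 0 = 0) ∨ ∀ x, R x 0 1 = 0 := by
  have hdet : ∀ x, (R x).det ≠ 0 := fun x h => by
    have h1 : (R x).det * (R x⁻¹).det = 1 := by
      rw [← Matrix.det_mul, ← map_mul, mul_inv_cancel, map_one, Matrix.det_one]
    rw [h, zero_mul] at h1
    exact zero_ne_one h1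
  have hsq : ∀ g ∈ C, R g 0 0 * R g 0 0 = 1 ∧ R g 1 1 = R g 0 0 * (R g).det ∧
      R g 0 1 * R g 1 0 = 0 := by
    intro g hg
    set a := R g 0 0
    set d := R g 1 1
    set D := (R g).det
    have h2 : R (g₀ * g₀) = !![1, 0; 0, e * e] := by
      rw [map_mul, h₀, Matrix.mul_fin_two]
      ext i j
      fin_cases i <;> fin_cases j <;> simp [hs] <;> linear_combination e * e * hs
    have key : ∀ X : K, (∀ x, X * x = X * x) → ∀ g' ∈ C,
        R g' 0 0 = a → R g' 1 1 = X * d → (R g').det = X * D →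
          (a + X * d) ^ 2 = (X * D + 1) ^ 2 := by
      intro X _ g' hg' h00 h11 hD
      have h := hC g' hg'
      rwa [Matrix.trace_fin_two, h00, h11, hD] at h
    have hm : ∀ g' : G, R (g₀ * g₀ * g') 0 0 = R g' 0 0 ∧
        R (g₀ * g₀ * g') 1 1 = e * e * R g' 1 1 ∧ (R (g₀ * g₀ * g')).det = e * e * (R g').det := by
      intro g'
      rw [map_mul (R) (g₀ * g₀) g', h2, Matrix.det_mul, Matrix.det_fin_two_of]
      simp [Matrix.mul_apply, Fin.sum_univ_two]
    have hg1 := hthree g₀ hg₀ g₀ hg₀ g hg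
    have hg2 := hthree g₀ hg₀ g₀ hg₀ _ hg1
    have e0 := key 1 (fun _ => rfl) g hg rfl (one_mul d).symm (one_mul D).symm
    have e1 := key (e * e) (fun _ => rfl) _ hg1 (hm g).1 (hm g).2.1 (hm g).2.2
    have e2 := key (e * e * (e * e)) (fun _ => rfl) _ hg2 (by rw [(hm _).1, (hm g).1])
      (by rw [(hm _).2.1, (hm g).2.1]; ring) (by rw [(hm _).2.2, (hm g).2.2]; ring)
    set X := e * e
    have hX1 : X ≠ 1 := fun h => he 2 two_ne_zero (by rw [pow_two]; exact h)
    have hX2 : X * X ≠ 1 := fun h => he 4 (by norm_num)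
      ((show e ^ 4 = e * e * (e * e) by ring).trans h)
    have hX0 : X ≠ 0 := fun h => by
      have h' : e = 0 := mul_self_eq_zero.mp h
      rw [h', mul_zero] at h₀
      exact hdet g₀ (by rw [h₀, Matrix.det_fin_two_of]; ring)
    -- the three coefficients vanish
    set A := d ^ 2 - D ^ 2
    set B := 2 * (a * d - D)
    set C0 := a ^ 2 - 1
    have f0 : A + B + C0 = 0 := by simp only [A, B, C0]; linear_combination e0
    have f1 : A * X * X + B * X + C0 = 0 := by simp only [A, B, C0]; linear_combination e1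
    have f2 : A * (X * X) * (X * X) + B * (X * X) + C0 = 0 := by
      simp only [A, B, C0]; linear_combination e2
    have g1 : A * (1 + X) + B = 0 :=
      (mul_eq_zero.mp (show (X - 1) * (A * (1 + X) + B) = 0 by linear_combination f1 - f0)
        ).resolve_left (sub_ne_zero.mpr hX1)
    have g2 : A * (1 + X * X) + B = 0 :=
      (mul_eq_zero.mp (show (X * X - 1) * (A * (1 + X * X) + B) = 0 by linear_combination f2 - f0)
        ).resolve_left (sub_ne_zero.mpr hX2)
    have hA : A = 0 := (mul_eq_zero.mp (show (X * (X - 1)) * A = 0 by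
      linear_combination g2 - g1)).resolve_left (mul_ne_zero hX0 (sub_ne_zero.mpr hX1))
    have hB : B = 0 := by linear_combination g1 - (1 + X) * hA
    have hC0 : a * a = 1 := by
      have : C0 = 0 := by linear_combination f0 - hA - hB
      simp only [C0] at this
      linear_combination this
    have hda : d = a * D := by
      by_cases h2K : (2 : K) = 0
      · simp only [A] at hA
        have h3 : (d - a * D) ^ 2 = 0 := by
          linear_combination hA + (D ^ 2) * hC0 + (D ^ 2 - a * d * D) * h2K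
        exact sub_eq_zero.mp (pow_eq_zero_iff two_ne_zero |>.mp h3)
      · have hadD : a * d = D := sub_eq_zero.mp ((mul_eq_zero.mp hB).resolve_left h2K)
        linear_combination -d * hC0 + a * hadD
    refine ⟨hC0, hda, ?_⟩
    have h3 : D = a * d - R g 0 1 * R g 1 0 := Matrix.det_fin_two _
    linear_combination h3 + a * hda + D * hC0
  -- all on one side
  have hside : (∀ g ∈ C, R g 1 0 = 0) ∨ ∀ g ∈ C, R g 0 1 = 0 := by
    by_contra h
    push Not at h
    obtain ⟨⟨g', hg', hc⟩, g, hg, hb⟩ := h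
    obtain ⟨ha, hd, hbc⟩ := hsq g hg
    obtain ⟨ha', hd', hbc'⟩ := hsq g' hg'
    have hg10 : R g 1 0 = 0 := (mul_eq_zero.mp hbc).resolve_left hb
    have hg'01 : R g' 0 1 = 0 := (mul_eq_zero.mp hbc').resolve_right hc
    obtain ⟨-, -, h⟩ := hsq _ (hthree g hg g' hg' g₀ hg₀)
    have hs0 : s ≠ 0 := fun h0 => by rw [h0, zero_mul] at hs; exact zero_ne_one hs
    have he0 : e ≠ 0 := fun h0 => hdet g₀ (by rw [h₀, h0, Matrix.det_fin_two_of]; ring)
    have hne : ∀ {g : G}, R g 0 0 * R g 0 0 = 1 → R g 1 1 = R g 0 0 * (R g).det → R g 1 1 ≠ 0 :=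
      fun {g} ha hd => by
        rw [hd]; exact mul_ne_zero (left_ne_zero_of_mul_eq_one ha) (hdet g)
    rw [map_mul, map_mul, h₀] at h
    simp [Matrix.mul_apply, Fin.sum_univ_two, hg10, hg'01, hb, hc, hs0, he0, hne ha hd,
      hne ha' hd'] at h
  have he1 : e * e ≠ 1 := fun h => he 2 two_ne_zero (by rw [pow_two]; exact h)
  have hD0 : (R g₀).det = e := by
    rw [h₀, Matrix.det_fin_two_of]; linear_combination e * hs
  have hconjdet : ∀ x, (R (x * g₀ * x⁻¹)).det = e := fun x => by
    have h1 : (R x).det * (R x⁻¹).det = 1 := by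
      rw [← Matrix.det_mul, ← map_mul, mul_inv_cancel, map_one, Matrix.det_one]
    rw [map_mul, map_mul, Matrix.det_mul, Matrix.det_mul, hD0]
    linear_combination e * h1
  have hcomm : ∀ x, R (x * g₀ * x⁻¹) * R x = R x * !![s, 0; 0, s * e] := fun x => by
    rw [← map_mul, ← h₀, ← map_mul]
    congr 1
    group
  rcases hside with hup | hlo
  · refine Or.inl fun x => ?_
    obtain ⟨ha, hd, -⟩ := hsq _ (hconj x g₀ hg₀)
    rw [hconjdet] at hd
    have h := congrArg (fun Y => Y 1 0) (hcomm x)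
    have h10 := hup _ (hconj x g₀ hg₀)
    generalize R (x * g₀ * x⁻¹) = Y at ha hd h h10
    simp [Matrix.mul_apply, Fin.sum_univ_two, h10, hd] at h
    refine (mul_eq_zero.mp (show (Y 0 0 * e - s) * R x 1 0 = 0 by
      linear_combination h)).resolve_left (sub_ne_zero.mpr fun hse => he1 ?_)
    have := congrArg (fun z => z * z) hse
    linear_combination this - e * e * ha + hs
  · refine Or.inr fun x => ?_
    obtain ⟨ha, hd, -⟩ := hsq _ (hconj x g₀ hg₀)
    have h := congrArg (fun Y => Y 0 1) (hcomm x)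
    have h01 := hlo _ (hconj x g₀ hg₀)
    generalize R (x * g₀ * x⁻¹) = Y at ha hd h h01
    simp [Matrix.mul_apply, Fin.sum_univ_two, h01] at h
    refine (mul_eq_zero.mp (show (Y 0 0 - s * e) * R x 0 1 = 0 by
      linear_combination h)).resolve_left (sub_ne_zero.mpr fun hse => he1 ?_)
    have := congrArg (fun z => z * z) hse
    linear_combination -this + ha - e * e * hs

end Algebra

variable {O : Type} [CommRing O] [IsDomain O] [IsDiscreteValuationRing O] [CharZero O]
  [IsAdicComplete (maximalIdeal O) O] {p : ℕ} [Fact p.Prime]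

/-- Frobenius at `ℓ` acts on `μ_m` as `ℓ`. -/
theorem cyclo_frobenius {m : ℕ} [NeZero m] {c : (Qbar ≃ₐ[ℚ] Qbar) →* (ZMod m)ˣ}
    (hc : Deform.IsCycloMod m c) {ℓ : ℕ} (hℓ : ℓ.Prime) (hℓm : ¬ ℓ ∣ m)
    {A : ValuationSubring Qbar} (hA : A.LiesOverPrime ℓ) {σ : Qbar ≃ₐ[ℚ] Qbar}
    (hσ : A.IsFrobeniusAt σ ℓ) : (c σ : ZMod m) = (ℓ : ZMod m) := by
  haveI : NeZero (m : Qbar) := ⟨Nat.cast_ne_zero.mpr (NeZero.ne m)⟩
  obtain ⟨ζ, hζ⟩ := HasEnoughRootsOfUnity.exists_primitiveRoot Qbar m
  have h1 := (hc σ ζ hζ.pow_eq_one).symm.trans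
    (TameInertia.frobenius_root_of_unity hℓ hA hσ hℓm hζ.pow_eq_one)
  rw [pow_eq_pow_mod ℓ hζ.pow_eq_one] at h1
  rw [← ZMod.natCast_mod ℓ m, ← hζ.pow_inj (ZMod.val_lt _)
    (Nat.mod_lt _ (Nat.pos_of_ne_zero (NeZero.ne m))) h1, ZMod.natCast_zmod_val]

/-- A residually absolutely irreducible representation has no vanishing entry in any basis. -/
theorem spanning_contra (ρ : GaloisRepAdic O) (hirr : ρ.residual.IsAbsolutelyIrreducible)
    (P : Matrix (Fin 2) (Fin 2) (FractionRing O)) (hPu : IsUnit P.det) (i j : Fin 2)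
    (h : ∀ g, (P⁻¹ * (matrixRep ρ (repBasis ρ) g).map (algebraMap O (FractionRing O)) * P) i j
      = 0) : False := by
  set θ := algebraMap O (FractionRing O) with hθ
  let F : Matrix (Fin 2) (Fin 2) O →ₗ[O] FractionRing O :=
    { toFun := fun X => (P⁻¹ * X.map θ * P) i j
      map_add' := fun X Y => by
        rw [Matrix.map_add _ (map_add θ), Matrix.mul_add, Matrix.add_mul, Matrix.add_apply]
      map_smul' := fun a X => by
        have e : (a • X).map θ = θ a • X.map θ := by
          ext k l; simp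
        rw [e, Matrix.mul_smul, Matrix.smul_mul, Matrix.smul_apply, RingHom.id_apply, smul_eq_mul,
          Algebra.smul_def] }
  have hF : F = 0 := LinearMap.ext_on (Chebotarev.span_matrixRep_eq_top ρ hirr (repBasis ρ)) (by
    rintro _ ⟨g, rfl⟩; exact h g)
  have hkl : ∀ k l, P⁻¹ i k * P l j = 0 := fun k l => by
    have h2 : (P⁻¹ * (Matrix.single k l (1 : O)).map θ * P) i j = 0 :=
      LinearMap.congr_fun hF (Matrix.single k l 1)
    fin_cases k <;> fin_cases l <;>
      simpa [Matrix.mul_apply, Fin.sum_univ_two, Matrix.single] using h2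
  have hinv := Matrix.nonsing_inv_mul P hPu
  by_cases hc : ∀ l, P l j = 0
  · have := congrFun (congrFun hinv j) j
    simp [Matrix.mul_apply, hc] at this
  · push Not at hc
    obtain ⟨l, hl⟩ := hc
    have := congrFun (congrFun hinv i) i
    simp [Matrix.mul_apply, fun k => (mul_eq_zero.mp (hkl k l)).resolve_right hl] at this

/-- **The auxiliary prime.** -/
theorem exists_aux_prime (ρ : GaloisRepAdic O) (hdet : ρ.DetIsCyclotomic p)
    (hirr : ρ.residual.IsAbsolutelyIrreducible) (S : Finset ℕ) :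
    ∃ r : ℕ, r.Prime ∧ r ∉ S ∧ r % 12 = 11 ∧ ∃ A : ValuationSubring Qbar, A.LiesOverPrime r ∧
      ∃ σ : Qbar ≃ₐ[ℚ] Qbar, A.IsFrobeniusAt σ r ∧ ρ.trace σ ^ 2 ≠ ((r : O) + 1) ^ 2 := by
  classical
  set b := repBasis ρ
  set R := matrixRep ρ b
  have hRdet : ∀ σ, (R σ).det = LinearMap.det (ρ.ρ σ) := fun σ => LinearMap.det_toMatrix b _
  have hRtr : ∀ σ, (R σ).trace = ρ.trace σ := fun σ =>
    (LinearMap.trace_eq_matrix_trace O b _).symm
  obtain ⟨c, hc⟩ := Deform.exists_isCycloMod 12
  haveI : NeZero ((12 : ℕ) : Qbar) := ⟨by norm_num⟩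
  obtain ⟨ζ, hζ⟩ := HasEnoughRootsOfUnity.exists_primitiveRoot Qbar 12
  haveI : FiniteDimensional ℚ ↥(IntermediateField.adjoin ℚ ({ζ} : Set Qbar)) :=
    IntermediateField.adjoin.finiteDimensional ((hζ.isIntegral (by norm_num)).tower_top)
  let C : Set (Qbar ≃ₐ[ℚ] Qbar) := {g | (c g : ZMod 12) = 11}
  have hframe : ∀ ℓ : ℕ, ℓ.Prime → ℓ ∉ insert 2 (insert 3 (insert p S)) →
      ∀ A : ValuationSubring Qbar, A.LiesOverPrime ℓ → ∀ σ, A.IsFrobeniusAt σ ℓ →
        (R σ).det = (ℓ : O) ∧ (c σ : ZMod 12) = (ℓ : ZMod 12) := by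
    intro ℓ hℓ hℓS A hA σ hσ
    simp only [Finset.mem_insert, not_or] at hℓS
    refine ⟨?_, cyclo_frobenius hc hℓ (fun h => ?_) hA hσ⟩
    · rw [hRdet, SquareOld.det_eq_padicHom hdet, epsilon_frobenius hℓ hℓS.2.2.1 hA hσ, map_natCast]
    · rcases hℓ.dvd_mul.mp (show ℓ ∣ 4 * 3 from h) with h | h
      · exact hℓS.1 ((Nat.prime_dvd_prime_iff_eq hℓ Nat.prime_two).mp
          (hℓ.dvd_of_dvd_pow (n := 2) (show ℓ ∣ 2 ^ 2 from h)))
      · exact hℓS.2.1 ((Nat.prime_dvd_prime_iff_eq hℓ Nat.prime_three).mp h)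
  -- some element of the coset has no eigenvalue `± 1`
  obtain ⟨g, hgC, hg⟩ : ∃ g ∈ C, (R g).trace ^ 2 ≠ ((R g).det + 1) ^ 2 := by
    by_contra! hall
    obtain ⟨r₁, hlt, hr₁, hr12⟩ := Nat.forall_exists_prime_gt_and_eq_mod
      (q := 12) (a := 11) (IsUnit.of_mul_eq_one 11 (by decide)) (p + 3 + S.sup id)
    obtain ⟨A, g₀, hA, hσ₀⟩ := Frobenius.exists_liesOverPrime_and_isFrobeniusAt_qbar hr₁
    obtain ⟨hd₀, hc₀⟩ := hframe r₁ hr₁ (by
      simp only [Finset.mem_insert, not_or]
      exact ⟨by omega, by omega, by omega, fun h => by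
        have := Finset.le_sup (f := id) h; simp only [id] at this; omega⟩) A hA g₀ hσ₀
    have hg₀ : g₀ ∈ C := hc₀.trans hr12
    let K := FractionRing O
    let θ := algebraMap O K
    haveI : CharZero K := charZero_of_injective_algebraMap (IsFractionRing.injective O K)
    set e : K := (r₁ : K) with he_def
    have he : ∀ k : ℕ, k ≠ 0 → e ^ k ≠ 1 := fun k hk h => by
      rw [he_def, ← Nat.cast_pow, Nat.cast_eq_one] at h
      exact hr₁.one_lt.ne' ((pow_eq_one_iff.mp h).resolve_right hk)
    -- an eigen basis of `g₀`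
    set T := (R g₀).map θ with hT
    have hTd : T.det = e := by
      rw [hT, ← RingHom.mapMatrix_apply, ← RingHom.map_det, hd₀, map_natCast]
    have hTt := congrArg θ (hall g₀ hg₀)
    rw [map_pow, map_pow, map_add, map_one, hd₀, map_natCast,
      show θ (R g₀).trace = T.trace from AddMonoidHom.map_trace θ.toAddMonoidHom _] at hTt
    obtain ⟨s, hs, hst⟩ : ∃ s : K, s * s = 1 ∧ T.trace = s * (1 + e) := by
      rcases eq_or_eq_neg_of_sq_eq_sq _ _ hTt with h | h
      · exact ⟨1, one_mul 1, by rw [h]; ring⟩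
      · exact ⟨-1, by ring, by rw [h]; ring⟩
    obtain ⟨v₁, hv₁, hv₁'⟩ := Matrix.exists_mulVec_eq_zero_iff.mpr
      (show (T - s • 1).det = 0 by
        rw [Matrix.trace_fin_two] at hst
        rw [Matrix.det_fin_two] at hTd
        rw [Matrix.det_fin_two]; simp
        linear_combination hTd - s * hst - e * hs)
    obtain ⟨v₂, hv₂, hv₂'⟩ := Matrix.exists_mulVec_eq_zero_iff.mpr
      (show (T - (s * e) • 1).det = 0 by
        rw [Matrix.trace_fin_two] at hst
        rw [Matrix.det_fin_two] at hTd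
        rw [Matrix.det_fin_two]; simp
        linear_combination hTd - s * e * hst - e * hs)
    rw [sub_mulVec, smul_mulVec, one_mulVec, sub_eq_zero] at hv₁' hv₂'
    let P : Matrix (Fin 2) (Fin 2) K := Matrix.of fun i j => ![v₁ i, v₂ i] j
    have hPd : P.det ≠ 0 := fun h => by
      obtain ⟨x, hx0, hx⟩ := Matrix.exists_mulVec_eq_zero_iff.mpr h
      have hlin : x 0 • v₁ + x 1 • v₂ = 0 := by
        funext i
        have := congrFun hx i
        simp [P, Matrix.mulVec, dotProduct, Fin.sum_univ_two] at this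
        simp only [Pi.add_apply, Pi.smul_apply, smul_eq_mul, Pi.zero_apply]
        linear_combination this
      have h2 := congrArg (T *ᵥ ·) hlin
      simp only [mulVec_add, mulVec_smul, hv₁', hv₂', mulVec_zero] at h2
      have h3 : (s * e - s) • (x 1 • v₂) = 0 := by
        funext i
        have a2 := congrFun h2 i
        have a1 := congrFun hlin i
        simp only [Pi.add_apply, Pi.smul_apply, smul_eq_mul, Pi.zero_apply] at a1 a2 ⊢
        linear_combination a2 - s * a1
      have hs0 : s ≠ 0 := left_ne_zero_of_mul_eq_one hs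
      have hne : s * e - s ≠ 0 := fun h4 => he 1 one_ne_zero (by
        rw [pow_one]; exact mul_left_cancel₀ hs0 (by rw [mul_one]; exact sub_eq_zero.mp h4))
      have hx1 : x 1 = 0 :=
        (smul_eq_zero.mp ((smul_eq_zero.mp h3).resolve_left hne)).resolve_right hv₂
      rw [hx1, zero_smul, add_zero] at hlin
      refine hx0 (funext fun i => ?_)
      fin_cases i
      exacts [(smul_eq_zero.mp hlin).resolve_right hv₁, hx1]
    have hPu : IsUnit P.det := isUnit_iff_ne_zero.mpr hPd
    have hTP : T * P = P * !![s, 0; 0, s * e] := by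
      ext i j
      have e1 := congrFun hv₁' i
      have e2 := congrFun hv₂' i
      simp [Matrix.mulVec, dotProduct, Fin.sum_univ_two] at e1 e2
      fin_cases j <;> simp [Matrix.mul_apply, P, Fin.sum_univ_two]
      · linear_combination e1
      · linear_combination e2
    let R' : (Qbar ≃ₐ[ℚ] Qbar) →* Matrix (Fin 2) (Fin 2) K :=
      { toFun := fun g => P⁻¹ * (R g).map θ * P
        map_one' := by
          rw [map_one, Matrix.map_one _ (map_zero _) (map_one _), mul_one, Matrix.nonsing_inv_mul _ hPu]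
        map_mul' := fun g h => by
          rw [map_mul, Matrix.map_mul]
          simp only [← mul_assoc, Matrix.mul_nonsing_inv_cancel_right _ _ hPu] }
    have hR'd : ∀ g, (R' g).det = θ (R g).det := fun g => by
      show (P⁻¹ * (R g).map θ * P).det = _
      rw [Matrix.det_mul, Matrix.det_mul, RingHom.map_det, mul_right_comm, ← Matrix.det_mul,
        Matrix.nonsing_inv_mul _ hPu, Matrix.det_one, one_mul]
      rfl
    have hR't : ∀ g, (R' g).trace = θ (R g).trace := fun g => by
      show (P⁻¹ * (R g).map θ * P).trace = _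
      rw [Matrix.trace_mul_cycle, Matrix.mul_nonsing_inv _ hPu, one_mul]
      exact (AddMonoidHom.map_trace θ.toAddMonoidHom _).symm
    have hcC : ∀ g : Qbar ≃ₐ[ℚ] Qbar, g ∈ C ↔ (c g : ZMod 12) = 11 := fun g => Iff.rfl
    rcases triangular_of_sq_trace_eq R' C (fun x g hg => by
        rw [hcC] at hg ⊢
        rw [map_mul, map_mul, map_inv, mul_inv_cancel_comm]; exact hg)
      (fun g hg h hh k hk => by
        rw [hcC] at hg hh hk ⊢
        rw [map_mul, map_mul, Units.val_mul, Units.val_mul, hg, hh, hk]; decide)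
      (fun g hg => by
        rw [hR't, hR'd, ← map_pow, hall g hg, map_pow, map_add, map_one])
      hg₀ (s := s) (e := e) hs he (by
        show P⁻¹ * T * P = _
        rw [mul_assoc, hTP, ← mul_assoc, Matrix.nonsing_inv_mul _ hPu, one_mul]) with h | h
    · exact spanning_contra ρ hirr P hPu 1 0 h
    · exact spanning_contra ρ hirr P hPu 0 1 h
  -- a Frobenius element close to it
  obtain ⟨n, hn⟩ : ∃ n, (R g).trace ^ 2 - ((R g).det + 1) ^ 2 ∉ maximalIdeal O ^ n := by
    by_contra! h
    exact sub_ne_zero.mpr hg ((Submodule.eq_bot_iff _).mp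
      (Ideal.iInf_pow_eq_bot_of_isLocalRing (maximalIdeal O) (maximalIdeal.isMaximal O).ne_top) _
      (Submodule.mem_iInf _ |>.mpr h))
  obtain ⟨L, hL, hfix⟩ := isCont_matrixRep ρ b n
  haveI := hL
  haveI : FiniteDimensional ℚ ↥(L ⊔ IntermediateField.adjoin ℚ ({ζ} : Set Qbar)) :=
    IntermediateField.finiteDimensional_sup _ _
  obtain ⟨r, hr, hrS, A, hA, σ, hσ, hag⟩ := Chebotarev.exists_isFrobeniusAt_eqOn
    (L ⊔ IntermediateField.adjoin ℚ ({ζ} : Set Qbar)) g (insert 2 (insert 3 (insert p S)))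
  obtain ⟨hd, hcr⟩ := hframe r hr hrS A hA σ hσ
  have hcg : c σ = c g := by
    have h1 : c (g⁻¹ * σ) = 1 := (hc.eq_one_iff hζ _).mpr (by
      rw [AlgEquiv.mul_apply, hag ζ (le_sup_right (α := IntermediateField ℚ Qbar)
        (IntermediateField.mem_adjoin_simple_self ℚ ζ))]
      exact g.symm_apply_apply ζ)
    rwa [map_mul, map_inv, inv_mul_eq_one, eq_comm] at h1
  refine ⟨r, hr, fun h => hrS (by simp [h]), ?_, A, hA, σ, hσ, fun heq => hn ?_⟩
  · have h1 : ((r : ℕ) : ZMod 12) = ((11 : ℕ) : ZMod 12) := by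
      rw [← hcr, hcg]; exact hgC
    rw [ZMod.natCast_eq_natCast_iff'] at h1
    exact h1
  · set q := Ideal.Quotient.mk (maximalIdeal O ^ n)
    have hm : (R σ).map q = (R g).map q := by
      have h3 := hfix (g⁻¹ * σ) fun x hx => by
        rw [AlgEquiv.mul_apply, hag x (le_sup_left (α := IntermediateField ℚ Qbar) hx)]
        exact g.symm_apply_apply x
      have h4 : (R (g⁻¹ * σ)).map q = 1 := by
        ext i j
        have h5 := Ideal.Quotient.eq_zero_iff_mem.mpr (h3 i j)
        rw [Matrix.sub_apply, map_sub, sub_eq_zero] at h5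
        rw [Matrix.map_apply, h5]
        rcases eq_or_ne i j with rfl | hij
        · simp
        · simp [hij]
      rw [show σ = g * (g⁻¹ * σ) from (mul_inv_cancel_left g σ).symm, map_mul, Matrix.map_mul, h4,
        mul_one]
    have hT : q (R σ).trace = q (R g).trace :=
      (AddMonoidHom.map_trace q.toAddMonoidHom _).trans ((congrArg Matrix.trace hm).trans
        (AddMonoidHom.map_trace q.toAddMonoidHom _).symm)
    have hD : q (R σ).det = q (R g).det := by
      rw [RingHom.map_det, RingHom.map_det]; exact congrArg Matrix.det hm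
    rw [← Ideal.Quotient.eq_zero_iff_mem, map_sub, map_pow, map_pow, map_add, ← hT, ← hD, hd, hRtr,
      ← map_pow, heq, map_pow, map_add, map_one, sub_self]

end Fermat.Agent.RowS36
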