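import Fermat.Agent.RowS36.Attach
import Fermat.Agent.RowS36.Poly
import Fermat.Agent.RowS36.Levels

/-!
# A newform representation is not unipotent on inertia where the square of the prime divides exactly
-/

set_option autoImplicit false
set_option linter.style.haveILetI false

noncomputable section

open IsLocalRing Matrix Polynomial CongruenceSubgroup ModularCurve

namespace Fermat.Agent.RowS36

open EigenRep SemistableRed

local notation "Qbar" => AlgebraicClosure ℚ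

/-- The representation attached to a newform is not unipotent at `q` with `q² ∥ M`. -/
theorem not_isUnipotentOnInertiaAt_of_newform
    (hgeo : ∀ (N w : ℕ) [NeZero N] [NeZero w], w.Prime → ¬ w ∣ N → nuTwo N = 0 → nuThree N = 0 →
      SquareOld.FixedKilledByNorms N w)
    {M : ℕ} [NeZero M] {g : CuspForm (Gamma0 M) 2} (hg : g.IsNewform)
    {p : ℕ} [Fact p.Prime] {S : Finset ℕ} (hpS : p ∈ S)
    (hMS : ∀ q : ℕ, q.Prime → q ∣ M → q ∈ S)
    (χ : CuspForm.heckeAlgebra M 2 (↑S : Set ℕ) →+* ℂ)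
    (hχ : ∀ (ℓ : ℕ) (hℓ : ℓ.Prime) (hℓM : ¬ ℓ ∣ M) (hℓS : ℓ ∉ (↑S : Set ℕ)),
      χ (CuspForm.heckeAlgebra.T hℓ hℓM hℓS) = ModularFormClass.qCoeff g ℓ)
    {O : Type} [CommRing O] [IsDomain O] [IsDiscreteValuationRing O]
    [IsAdicComplete (maximalIdeal O) O] [CharZero O] (hpO : (p : O) ∈ maximalIdeal O)
    (ι : χ.range →+* O) (ρ : GaloisRepAdic O) (hirr : ρ.residual.IsAbsolutelyIrreducible)
    (hfrob : ∀ (ℓ : ℕ) (hℓ : ℓ.Prime) (hℓM : ¬ ℓ ∣ M) (hℓS : ℓ ∉ (↑S : Set ℕ)),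
      ∀ A : ValuationSubring Qbar, A.LiesOverPrime ℓ → ∀ σ, A.IsFrobeniusAt σ ℓ →
        LinearMap.charpoly (ρ.ρ σ) =
          X ^ 2 - C ((ι.comp χ.rangeRestrict) (CuspForm.heckeAlgebra.T hℓ hℓM hℓS)) * X
            + C ((ℓ : O)))
    {q : ℕ} (hq : q.Prime) (hqp : q ≠ p) (hqM : M.factorization q = 2) :
    ¬ ρ.IsUnipotentOnInertiaAt q := by
  classical
  intro hu
  haveI := Fact.mk hq
  haveI : NeZero q := ⟨hq.ne_zero⟩
  -- the levels
  set N0 := M / q ^ 2 with hN0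
  have hM : N0 * q * q = M := by
    have h := Nat.ordProj_mul_ordCompl_eq_self M q
    rw [hqM] at h
    calc N0 * q * q = q ^ 2 * (M / q ^ 2) := by rw [hN0]; ring
      _ = M := h
  have hqN0 : ¬ q ∣ N0 := by
    have h := Nat.not_dvd_ordCompl hq (NeZero.ne M)
    rwa [hqM] at h
  haveI : NeZero N0 := ⟨fun h => NeZero.ne M (by rw [← hM, h, zero_mul, zero_mul])⟩
  haveI : NeZero (N0 * q) := ⟨mul_ne_zero (NeZero.ne N0) hq.ne_zero⟩
  have hdvd : N0 * q ∣ M := ⟨q, hM.symm⟩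
  have hne : N0 * q ≠ M := fun h => hq.one_lt.ne' <| by
    refine Nat.eq_of_mul_eq_mul_left (Nat.pos_of_ne_zero (NeZero.ne (N0 * q))) ?_
    rw [hM, mul_one, h]
  have hqS : q ∈ S := hMS q hq ⟨N0 * q, by rw [mul_comm]; exact hM.symm⟩
  -- the system
  let K := FractionRing O
  haveI : CharZero K := charZero_of_injective_algebraMap (IsFractionRing.injective O K)
  set χ' : CuspForm.heckeAlgebra M 2 (↑S : Set ℕ) →+* O := ι.comp χ.rangeRestrict
  let R := torsionInputs (allRelations M p)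
  let R' := torsionInputs (allRelations (N0 * q) p)
  let f : matAlg (matFamily R.model (↑S : Set ℕ)) →+* O := χ'.comp (toForms R.model ↑S)
  let a : ℕ → O := fun ℓ =>
    if h : ℓ.Prime ∧ ℓ ∉ (↑S : Set ℕ) then f (matGen _ ⟨⟨ℓ, h.1⟩, h.2⟩) else 0
  have hnd : ∀ ℓ : ℕ, ℓ.Prime → ℓ ∉ (↑S : Set ℕ) → ¬ ℓ ∣ M :=
    fun ℓ hℓ hS h => hS (Finset.mem_coe.mpr (hMS ℓ hℓ h))
  have haT : ∀ (ℓ : ℕ) (hℓ : ℓ.Prime) (hS : ℓ ∉ (↑S : Set ℕ)),
      a ℓ = χ' (CuspForm.heckeAlgebra.T hℓ (hnd ℓ hℓ hS) hS) := fun ℓ hℓ hS => by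
    simp only [a, dif_pos (show ℓ.Prime ∧ ℓ ∉ (↑S : Set ℕ) from ⟨hℓ, hS⟩)]
    exact congrArg χ' (toForms_T R.model hℓ (hnd ℓ hℓ hS) hS)
  have hocc : Engine.Occurs K M 1 S fun ℓ => algebraMap O K (a ℓ) := by
    obtain ⟨v, hv0, hv⟩ := exists_eigenvector_family R (↑S : Set ℕ) ((algebraMap O K).comp f)
      (fun ℓ : Nat.Primes => algebraMap O K (a ℓ)) fun ℓ => by
        simp only [a, dif_pos (show (ℓ.1 : ℕ).Prime ∧ (ℓ.1 : ℕ) ∉ (↑S : Set ℕ) from ⟨ℓ.1.2, ℓ.2⟩)]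
        rfl
    exact EigenSystems.occurs_of_mulVec hv0 fun ℓ hℓS _ =>
      (mem_eigenSub R.model).mp hv ℓ (by simpa using hℓS)
  have hatt : Engine.IsAttachedSystem O p ρ S a := by
    refine ⟨detIsCyclotomic_of_frobenius hpO ρ S fun ℓ hℓ hℓS A hA σ hσ => ?_,
      fun ℓ hℓ hℓS A hA σ hσ => ?_⟩
    · exact det_eq_of_charpoly ρ (hfrob ℓ hℓ (hnd ℓ hℓ (by simpa using hℓS)) (by simpa using hℓS)
        A hA σ hσ)
    · rw [haT ℓ hℓ (by simpa using hℓS)]
      exact Chebotarev.trace_eq_of_charpoly ρ.finrank_eq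
        (hfrob ℓ hℓ (hnd ℓ hℓ (by simpa using hℓS)) (by simpa using hℓS) A hA σ hσ)
  have hirr' := fun v hv => exists_not_eigen ρ hirr v hv
  rw [← hM] at hocc
  -- an auxiliary prime kills the elliptic points
  obtain ⟨r, hr, hrS, hr12, A, hA, σ, hσ, hσr⟩ := exists_aux_prime ρ hatt.1 hirr S
  haveI := Fact.mk hr
  haveI : NeZero r := ⟨hr.ne_zero⟩
  haveI : NeZero (N0 * r) := ⟨mul_ne_zero (NeZero.ne N0) hr.ne_zero⟩
  set S' := insert r S with hS'
  have hsub : S ⊆ S' := Finset.subset_insert r S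
  have hrM : ¬ r ∣ M := fun h => hrS (hMS r hr h)
  have hrq : r ≠ q := fun h => hrS (h ▸ hqS)
  have hqNr : ¬ q ∣ N0 * r := fun h => (hq.dvd_mul.mp h).elim hqN0 fun h =>
    hrq ((Nat.prime_dvd_prime_iff_eq hq hr).mp h).symm
  have hNrS : ∀ m : ℕ, m.Prime → m ∣ N0 * r → m ∈ S' := fun m hm h => (hm.dvd_mul.mp h).elim
    (fun h => hsub (hMS m hm (h.trans ((dvd_mul_right N0 q).trans hdvd))))
    fun h => by rw [(Nat.prime_dvd_prime_iff_eq hm hr).mp h]; exact Finset.mem_insert_self r S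
  have hatt' : Engine.IsAttachedSystem O p ρ S' a :=
    ⟨hatt.1, fun ℓ hℓ h => hatt.2 ℓ hℓ fun hm => h (hsub hm)⟩
  have hoccS : Engine.Occurs K (N0 * q * q) 1 S' fun ℓ => algebraMap O K (a ℓ) :=
    EigenSystems.occurs_mono hocc hsub fun ℓ _ _ _ => rfl
  have hup := occurs_up (M' := N0 * r * q * q) ⟨r, by ring⟩ hoccS
  have hlow0 := SquareOld.squareLevelIsOld_of_fixedKilled (O := O) (p := p)
    (hgeo (N0 * r) q hq hqNr (nuTwo_eq_zero_of_prime_dvd (dvd_mul_left r N0) (by omega))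
      (nuThree_eq_zero_of_prime_dvd (dvd_mul_left r N0) (by omega)))
    Fact.out hq hqp hqNr (Nat.pos_of_ne_zero (NeZero.ne _)) S' a ρ (hsub hqS) (hsub hpS)
    hNrS hup hatt' hirr' fun A hA => exists_fixed_of_unipotent ρ hu A hA
  rw [mul_right_comm] at hlow0
  have hne' : ∀ L : ℕ, 0 < L →
      EigenSystems.NonEisensteinSystem L S' fun ℓ => algebraMap O K (a ℓ) := fun L hL => by
    obtain ⟨ℓ₁, hℓ₁, hℓ₁S, hℓ₁N, hℓ₁a⟩ :=
      SquareOld.exists_prime_eigen_ne hatt' hirr' (hsub hpS) L hL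
    exact ⟨ℓ₁, hℓ₁, hℓ₁S, hℓ₁N, fun e =>
      hℓ₁a (IsFractionRing.injective O K (by rw [map_add, map_natCast, map_one]; exact e))⟩
  have hlow := occurs_down hr (fun h => hrS (h ▸ hpS)) (fun h => hrM (h.trans hdvd))
    (Finset.mem_insert_self r S) (hsub hpS) (fun m hm h => hsub (hMS m hm (h.trans hdvd))) hatt'
    (hne' _ (Nat.pos_of_ne_zero (mul_ne_zero (NeZero.ne _) hr.ne_zero))) hlow0 hA hσ hσr
  -- a polynomial vanishing at the lower level only
  have hle := CuspForm.heckeAlgebra_mono (N := M) (k := 2) (Finset.coe_subset.mpr hsub)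
  let incl := (Subalgebra.inclusion hle).toRingHom
  have hinclT : ∀ (ℓ : ℕ) (hℓ : ℓ.Prime) (hℓM : ¬ ℓ ∣ M) (h : ℓ ∉ (↑S' : Set ℕ)),
      incl (CuspForm.heckeAlgebra.T hℓ hℓM h) =
        CuspForm.heckeAlgebra.T hℓ hℓM (fun hm => h (Finset.coe_subset.mpr hsub hm)) :=
    fun ℓ hℓ hℓM h => Subtype.ext rfl
  obtain ⟨P, hP, hPχ⟩ := exists_poly_of_newform (p := p) hg hdvd hne S'.finite_toSet
    (fun m hm h => Finset.mem_coe.mpr (hsub (hMS m hm h))) (χ.comp incl)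
    fun ℓ hℓ hℓM hℓS => by rw [RingHom.comp_apply, hinclT, hχ]
  obtain ⟨v, hv0, hv⟩ := SquareOld.exists_mulVec_of_occurs hlow
    (hne' _ (Nat.pos_of_ne_zero (NeZero.ne _)))
  have h0 := map_evalT_mulVec R'.model (↑S' : Set ℕ)
    (fun ℓ : Nat.Primes => algebraMap O K (a ℓ)) (v := v)
    (fun ℓ hℓ => hv ℓ (fun hm => hℓ (Finset.mem_coe.mpr hm)) fun h =>
      hℓ (Finset.coe_subset.mpr hsub (Finset.mem_coe.mpr (hMS ℓ ℓ.2 (h.trans hdvd))))) P
  rw [hP, ZeroMemClass.coe_zero, Matrix.map_zero _ (map_zero _), zero_mulVec, eq_comm,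
    smul_eq_zero] at h0
  replace h0 := h0.resolve_right hv0
  -- but not on the newform
  letI := matAlgCommRing (T := matFamily R.model (↑S' : Set ℕ)) fun i j => R.model.comm i.1 j.1
  let ψ : MvPolynomial {ℓ : Nat.Primes // (ℓ : ℕ) ∉ (↑S' : Set ℕ)} ℤ →+* O :=
    ((χ'.comp incl).comp (toForms R.model (↑S' : Set ℕ))).comp
      (MvPolynomial.aeval fun ℓ => matGen (matFamily R.model (↑S' : Set ℕ)) ℓ).toRingHom
  have e : (algebraMap O K).comp ψ =
      MvPolynomial.eval₂Hom (Int.castRingHom K) (fun ℓ => algebraMap O K (a (ℓ.1 : ℕ))) :=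
    MvPolynomial.ringHom_ext (fun c => by simp) fun ℓ => by
      rw [MvPolynomial.eval₂Hom_X']
      show algebraMap O K (χ' (incl (toForms R.model _
        (MvPolynomial.aeval _ (MvPolynomial.X ℓ))))) = _
      have hℓS : (ℓ.1 : ℕ) ∉ (↑S : Set ℕ) := fun hm => ℓ.2 (Finset.coe_subset.mpr hsub hm)
      rw [MvPolynomial.aeval_X, show toForms R.model (↑S' : Set ℕ) (matGen _ ℓ) = _ from
        toForms_T R.model ℓ.1.2 (hnd ℓ.1 ℓ.1.2 hℓS) ℓ.2, hinclT, haT ℓ.1 ℓ.1.2 hℓS]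
  have h1 : ψ P = 0 := IsFractionRing.injective O K <| by
    rw [map_zero, ← h0]
    exact DFunLike.congr_fun e P
  have hint : IsIntegral ℤ (χ.rangeRestrict (incl (toForms R.model (↑S' : Set ℕ)
      (evalT R.model (↑S' : Set ℕ) P)))) := by
    have : Module.Finite ℤ (matAlg (matFamily R.model (↑S' : Set ℕ))) :=
      Module.Finite.of_injective (matAlg (matFamily R.model (↑S' : Set ℕ))).val.toLinearMap
        Subtype.val_injective
    exact map_isIntegral_int ((χ.rangeRestrict.comp incl).comp (toForms R.model (↑S' : Set ℕ)))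
      (IsIntegral.of_finite ℤ (evalT R.model (↑S' : Set ℕ) P))
  exact map_ne_zero_of_isIntegral ι hint (fun h => hPχ (congrArg Subtype.val h)) h1

/-- **Carayol at primes with exact square**, given the geometric bound. -/
theorem exists_galoisRepAdic_not_unipotent_of_geo
    (hgeo : ∀ (N w : ℕ) [NeZero N] [NeZero w], w.Prime → ¬ w ∣ N → nuTwo N = 0 → nuThree N = 0 →
      SquareOld.FixedKilledByNorms N w)
    {M : ℕ} [NeZero M] {g : CuspForm (Gamma0 M) 2} (hg : g.IsNewform)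
    (lam : ℕ) [Fact lam.Prime] (S : Finset ℕ)
    (O' : Type) [CommRing O'] [IsDomain O'] [IsDiscreteValuationRing O']
    [IsAdicComplete (maximalIdeal O') O'] [Finite (ResidueField O')]
    [CharZero O'] (hlamO' : (lam : O') ∈ maximalIdeal O')
    (chig : CuspForm.heckeAlgebra M 2 (↑S : Set ℕ) →+* ℂ)
    (hchig : ∀ (ℓ : ℕ) (hℓ : ℓ.Prime) (hℓM : ¬ ℓ ∣ M) (hℓS : ℓ ∉ (↑S : Set ℕ)),
      chig (CuspForm.heckeAlgebra.T hℓ hℓM hℓS) = ModularFormClass.qCoeff g ℓ)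
    (iota : chig.range →+* O')
    (hlamS : lam ∈ S) (hMS : ∀ q : ℕ, q.Prime → q ∣ M → q ∈ S)
    (hres : ∀ (O'' : Type) [CommRing O''] [IsDomain O''] [IsDiscreteValuationRing O'']
      [IsAdicComplete (maximalIdeal O'') O''] [Finite (ResidueField O'')] [CharZero O'']
      [Algebra O' O''] [Module.Finite O' O''] [IsLocalHom (algebraMap O' O'')],
      Function.Injective (algebraMap O' O'') → ∀ (ρ : GaloisRepAdic O''),
      (∀ (ℓ : ℕ) (hℓ : ℓ.Prime) (hℓlam : ℓ ≠ lam) (hℓM : ¬ ℓ ∣ M) (hℓS : ℓ ∉ (↑S : Set ℕ)),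
        ∀ A : ValuationSubring Qbar, A.LiesOverPrime ℓ →
          ∀ σ : Qbar ≃ₐ[ℚ] Qbar, A.IsFrobeniusAt σ ℓ →
            LinearMap.charpoly (ρ.ρ σ) =
              X ^ 2 - C (algebraMap O' O'' ((iota.comp chig.rangeRestrict)
                  (CuspForm.heckeAlgebra.T hℓ hℓM hℓS))) * X
                + C ((ℓ : O'')))
      → ρ.residual.IsAbsolutelyIrreducible ∧ ρ.residual.IsOdd) :
    ∃ (O'' : Type) (_ : CommRing O'') (_ : IsDomain O'') (_ : IsDiscreteValuationRing O'')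
      (_ : IsAdicComplete (maximalIdeal O'') O'') (_ : Finite (ResidueField O''))
      (_ : CharZero O'') (_ : Algebra O' O'') (_ : Module.Finite O' O'')
      (_ : IsLocalHom (algebraMap O' O'')),
      Function.Injective (algebraMap O' O'') ∧
      ∃ ρ : GaloisRepAdic O'',
        (∀ (ℓ : ℕ) (hℓ : ℓ.Prime) (hℓM : ¬ ℓ ∣ M) (hℓS : ℓ ∉ (↑S : Set ℕ)),
          ∀ A : ValuationSubring Qbar, A.LiesOverPrime ℓ →
            ∀ σ : Qbar ≃ₐ[ℚ] Qbar, A.IsFrobeniusAt σ ℓ →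
              LinearMap.charpoly (ρ.ρ σ) =
                X ^ 2 - C (algebraMap O' O'' ((iota.comp chig.rangeRestrict)
                    (CuspForm.heckeAlgebra.T hℓ hℓM hℓS))) * X
                  + C ((ℓ : O''))) ∧
        (∀ q : ℕ, q.Prime → q ≠ lam → M.factorization q = 2 → ¬ ρ.IsUnipotentOnInertiaAt q) := by
  obtain ⟨O'', _, _, _, _, _, _, _, _, _, hinj, ρ, hfrob, -⟩ :=
    exists_galoisRepAdic_of_inputs (torsionInputs (allRelations M lam)) S hlamS O' hlamO'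
      (iota.comp chig.rangeRestrict)
  obtain ⟨hirr, -⟩ := hres O'' hinj ρ fun ℓ hℓ _ hℓM hℓS => hfrob ℓ hℓ hℓM hℓS
  refine ⟨O'', inferInstance, inferInstance, inferInstance, inferInstance, inferInstance,
    inferInstance, inferInstance, inferInstance, inferInstance, hinj, ρ, hfrob,
    fun q hq hqlam hqM => ?_⟩
  refine not_isUnipotentOnInertiaAt_of_newform hgeo hg hlamS hMS chig hchig ?_
    ((algebraMap O' O'').comp iota) ρ hirr hfrob hq hqlam hqM
  rw [← map_natCast (algebraMap O' O'') lam]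
  exact map_nonunit (algebraMap O' O'') _ hlamO'

end Fermat.Agent.RowS36
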